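import Mathlib
import Fermat.Prelude.Thm_Algebra_finite_maximalSpectrum_and_bijective_localization_of_module_finite

/-!
# S29 wiring, step L4: a complete discrete valuation ring under a characteristic-`p` point of `𝓞 E`

`exists_complete_dvr`: for a number field `E`, a prime `p` and a ring homomorphism
`f : 𝓞 E →+* k` into a field of characteristic `p`, there is a complete discrete valuation ring
`𝒪'` of characteristic zero with finite residue field, a ring homomorphism `ι : 𝓞 E →+* 𝒪'` and an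
embedding `j` of the residue field of `𝒪'` into `k` with `j (ι x mod 𝔪) = f x`.

Construction: `𝒪'` is the localisation of `ℤ_[p] ⊗[ℤ] 𝓞 E` at the kernel of the induced map to `k`.
-/

set_option autoImplicit false
set_option linter.style.haveILetI false
set_option linter.unusedSectionVars false

open scoped NumberField TensorProduct

namespace Fermat.Agent.S29.CompleteDVR

/-- A Noetherian local ring whose maximal ideal is generated by a non-nilpotent element is a
domain. -/
theorem isDomain_of_maximalIdeal_eq_span {R : Type*} [CommRing R] [IsNoetherianRing R]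
    [IsLocalRing R] (π : R) (hπ : IsLocalRing.maximalIdeal R = Ideal.span {π})
    (hnil : ∀ n : ℕ, π ^ n ≠ 0) : IsDomain R := by
  have key : ∀ x : R, x ≠ 0 → ∃ (n : ℕ) (u : R), IsUnit u ∧ x = u * π ^ n := by
    intro x hx
    have hinf := Ideal.iInf_pow_eq_bot_of_isLocalRing (IsLocalRing.maximalIdeal R)
      (Ideal.IsMaximal.ne_top inferInstance)
    have hex : ∃ n : ℕ, x ∉ IsLocalRing.maximalIdeal R ^ n := by
      by_contra hcon
      push Not at hcon
      have : x ∈ ⨅ i, IsLocalRing.maximalIdeal R ^ i := by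
        rw [Ideal.mem_iInf]
        exact hcon
      rw [hinf] at this
      exact hx (by simpa using this)
    classical
    have hn := Nat.find_spec hex
    set n := Nat.find hex with hndef
    have hn0 : n ≠ 0 := by
      intro h0
      rw [h0, pow_zero, Ideal.one_eq_top] at hn
      exact hn Submodule.mem_top
    obtain ⟨m, hm⟩ := Nat.exists_eq_succ_of_ne_zero hn0
    have hm' : x ∈ IsLocalRing.maximalIdeal R ^ m := by
      by_contra hcon
      have := Nat.find_min' hex hcon
      omega
    rw [hπ, Ideal.span_singleton_pow, Ideal.mem_span_singleton] at hm'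
    obtain ⟨y, rfl⟩ := hm'
    refine ⟨m, y, ?_, mul_comm _ _⟩
    by_contra hy
    have hy' : y ∈ IsLocalRing.maximalIdeal R := (IsLocalRing.mem_maximalIdeal y).mpr hy
    apply hn
    rw [hm, pow_succ]
    exact Ideal.mul_mem_mul (by rw [hπ, Ideal.span_singleton_pow]; exact
      Ideal.mem_span_singleton_self _) hy'
  have hnzd : NoZeroDivisors R := by
    refine ⟨fun {a b} hab => ?_⟩
    by_contra hcon
    push Not at hcon
    obtain ⟨n, u, hu, rfl⟩ := key a hcon.1
    obtain ⟨n', u', hu', rfl⟩ := key b hcon.2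
    have h1 : (u * u') * π ^ (n + n') = 0 := by
      rw [← hab, pow_add]; ring
    have h2 : π ^ (n + n') = 0 := by
      have hunit : IsUnit (u * u') := hu.mul hu'
      exact (hunit.mul_right_eq_zero).mp h1
    exact hnil _ h2
  exact NoZeroDivisors.to_isDomain R

/-- In a Dedekind domain a nonzero prime is "locally principal": there are `π ∈ P` and `s ∉ P`
with `s • P ⊆ (π)`. -/
theorem exists_local_generator {O : Type*} [CommRing O] [IsDedekindDomain O] (P : Ideal O)
    [hP : P.IsPrime] (hP0 : P ≠ ⊥) :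
    ∃ π ∈ P, ∃ s, s ∉ P ∧ ∀ x ∈ P, ∃ y, s * x = π * y := by
  obtain ⟨π, hπ1, hπ2⟩ := Ideal.exists_mem_pow_notMem_pow_succ P hP0 hP.ne_top 1
  rw [pow_one] at hπ1
  obtain ⟨J, hJ⟩ := (Ideal.dvd_span_singleton (I := P) (x := π)).mpr hπ1
  have hJP : ¬ J ≤ P := by
    intro hle
    obtain ⟨J', rfl⟩ := Ideal.dvd_iff_le.mpr hle
    apply hπ2
    have : π ∈ P * (P * J') := hJ ▸ Ideal.mem_span_singleton_self π
    rw [← mul_assoc] at this
    have h2 : P * P * J' ≤ P ^ (1 + 1) := by
      rw [pow_succ, pow_one]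
      exact Ideal.mul_le_left
    exact h2 this
  obtain ⟨s, hsJ, hsP⟩ := Set.not_subset.mp hJP
  refine ⟨π, hπ1, s, hsP, fun x hx => ?_⟩
  have : s * x ∈ Ideal.span {π} := by
    rw [hJ, mul_comm s x]
    exact Ideal.mul_mem_mul hx hsJ
  obtain ⟨y, hy⟩ := Ideal.mem_span_singleton'.mp this
  exact ⟨y, by rw [← hy, mul_comm]⟩

section construction

variable (p : ℕ) [Fact p.Prime] (E : Type) [Field E] [NumberField E] {k : Type} [Field k]
  [CharP k p] (f : 𝓞 E →+* k)

/-- The ring `ℤ_[p] ⊗[ℤ] 𝓞 E`. -/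
abbrev TP : Type := ℤ_[p] ⊗[ℤ] (𝓞 E)

/-- The canonical map `ℤ_[p] → k` for a field `k` of characteristic `p`. -/
noncomputable def padicToField (k : Type) [Field k] [CharP k p] : ℤ_[p] →+* k :=
  (ZMod.castHom (dvd_refl p) k).comp PadicInt.toZMod

/-- The map `ℤ_[p] ⊗[ℤ] 𝓞 E → k` induced by `f`. -/
noncomputable def Psi : TP p E →+* k :=
  (Algebra.TensorProduct.lift (padicToField p k).toIntAlgHom f.toIntAlgHom
    (fun _ _ => Commute.all _ _)).toRingHom

theorem Psi_tmul (a : ℤ_[p]) (x : 𝓞 E) : Psi p E f (a ⊗ₜ x) = padicToField p k a * f x := by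
  unfold Psi
  exact Algebra.TensorProduct.lift_tmul _ _ _ a x

theorem Psi_one_tmul (x : 𝓞 E) : Psi p E f (1 ⊗ₜ x) = f x := by
  rw [Psi_tmul, map_one, one_mul]

theorem Psi_natCast_p : Psi p E f (p : TP p E) = 0 := by
  rw [map_natCast]
  exact CharP.cast_eq_zero k p

/-- Every element of `ℤ_[p] ⊗ 𝓞 E` is congruent modulo `p` to an element of `𝓞 E`. -/
theorem exists_decomp (a : TP p E) :
    ∃ (x : 𝓞 E) (w : TP p E), a = 1 ⊗ₜ x + (p : TP p E) * w := by
  induction a using TensorProduct.induction_on with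
  | zero => exact ⟨0, 0, by simp⟩
  | tmul c y =>
    obtain ⟨c', hc'⟩ := Ideal.mem_span_singleton'.mp (PadicInt.appr_spec 1 c)
    rw [pow_one] at hc'
    refine ⟨((c.appr 1 : ℕ) : ℤ) • y, c' ⊗ₜ y, ?_⟩
    have h1 : c = ((c.appr 1 : ℕ) : ℤ) • (1 : ℤ_[p]) + c' * (p : ℤ_[p]) := by
      rw [hc']
      simp
    have h2 : (p : TP p E) = (p : ℤ_[p]) ⊗ₜ[ℤ] (1 : 𝓞 E) := by
      rw [← map_natCast (algebraMap ℤ_[p] (TP p E)) p, Algebra.TensorProduct.algebraMap_apply]
      simp
    rw [h2, Algebra.TensorProduct.tmul_mul_tmul, one_mul, ← TensorProduct.smul_tmul,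
      ← TensorProduct.add_tmul, mul_comm (p : ℤ_[p]) c', ← h1]
  | add a b ha hb =>
    obtain ⟨x, w, rfl⟩ := ha
    obtain ⟨x', w', rfl⟩ := hb
    refine ⟨x + x', w + w', ?_⟩
    rw [TensorProduct.tmul_add, mul_add]
    abel

theorem Psi_decomp {a : TP p E} {x : 𝓞 E} {w : TP p E} (h : a = 1 ⊗ₜ x + (p : TP p E) * w) :
    Psi p E f a = f x := by
  rw [h, map_add, map_mul, Psi_natCast_p, zero_mul, add_zero, Psi_one_tmul]

theorem natCast_p_mem_ker : (p : 𝓞 E) ∈ RingHom.ker f := by
  rw [RingHom.mem_ker, map_natCast]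
  exact CharP.cast_eq_zero k p

include p in
theorem ker_isMaximal : (RingHom.ker f).IsMaximal := by
  have hprime : (RingHom.ker f).IsPrime := RingHom.ker_isPrime f
  refine hprime.isMaximal ?_
  intro hbot
  have h1 := natCast_p_mem_ker p E f
  rw [hbot, Ideal.mem_bot] at h1
  exact (Fact.out : p.Prime).ne_zero (by exact_mod_cast h1)

theorem kerPsi_isMaximal : (RingHom.ker (Psi p E f)).IsMaximal := by
  rw [Ideal.isMaximal_iff]
  refine ⟨?_, fun J a hJ ha haJ => ?_⟩
  · rw [RingHom.mem_ker, map_one]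
    exact one_ne_zero
  · obtain ⟨x, w, hxw⟩ := exists_decomp p E a
    have hfx : f x ≠ 0 := by
      rw [← Psi_decomp p E f hxw]
      exact ha
    obtain ⟨y, i, hi, hyi⟩ := (ker_isMaximal p E f).exists_inv (x := x) hfx
    have hfy : f y * f x = 1 := by
      have := congrArg f hyi
      rw [map_add, map_mul, (RingHom.mem_ker).mp hi, add_zero, map_one] at this
      exact this
    have hmem : a * (1 ⊗ₜ y) - 1 ∈ RingHom.ker (Psi p E f) := by
      rw [RingHom.mem_ker, map_sub, map_mul, Psi_decomp p E f hxw, Psi_one_tmul, map_one,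
        mul_comm, hfy, sub_self]
    have : (1 : TP p E) = a * (1 ⊗ₜ y) - (a * (1 ⊗ₜ y) - 1) := by ring
    rw [this]
    exact J.sub_mem (J.mul_mem_right _ haJ) (hJ hmem)

/-- `ℤ_[p] ⊗ 𝓞 E` has no additive torsion. -/
theorem natCast_mul_eq_zero {n : ℕ} (hn : n ≠ 0) {t : TP p E} (h : (n : TP p E) * t = 0) :
    t = 0 := by
  have h1 : (n : ℤ_[p]) • t = 0 := by
    rw [← h, ← map_natCast (algebraMap ℤ_[p] (TP p E)) n]
    exact Algebra.smul_def (R := ℤ_[p]) (A := TP p E) _ _
  rcases (smul_eq_zero (r := (n : ℤ_[p])) (m := t)).mp h1 with h2 | h2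
  · exact absurd (by exact_mod_cast h2) hn
  · exact h2

/-- **A complete DVR under a characteristic-`p` point of `𝓞 E`.** -/
theorem exists_complete_dvr :
    ∃ (𝒪' : Type) (_ : CommRing 𝒪') (_ : IsDomain 𝒪') (_ : IsDiscreteValuationRing 𝒪')
      (_ : IsAdicComplete (IsLocalRing.maximalIdeal 𝒪') 𝒪')
      (_ : Finite (IsLocalRing.ResidueField 𝒪')) (_ : CharZero 𝒪'),
      (p : 𝒪') ∈ IsLocalRing.maximalIdeal 𝒪' ∧
      ∃ (ι : 𝓞 E →+* 𝒪') (j : IsLocalRing.ResidueField 𝒪' →+* k),
        ∀ x : 𝓞 E, j (IsLocalRing.residue 𝒪' (ι x)) = f x := by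
  classical
  obtain ⟨-, -, hfin, hcomp⟩ :=
    Algebra.finite_maximalSpectrum_and_bijective_localization_of_module_finite
      (𝒪 := ℤ_[p]) (TP p E)
  obtain ⟨I, hI⟩ : ∃ I : MaximalSpectrum (TP p E), I.asIdeal = RingHom.ker (Psi p E f) :=
    ⟨⟨_, kerPsi_isMaximal p E f⟩, rfl⟩
  have hfinI := hfin I
  have hcompI := hcomp I
  have hImem : ∀ a : TP p E, a ∈ I.asIdeal ↔ Psi p E f a = 0 := fun a => by
    rw [hI, RingHom.mem_ker]
  have hmax : IsLocalRing.maximalIdeal (Localization.AtPrime I.asIdeal) =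
      Ideal.map (algebraMap (TP p E) (Localization.AtPrime I.asIdeal)) I.asIdeal :=
    Localization.AtPrime.map_eq_maximalIdeal.symm
  have hnoeth : IsNoetherianRing (Localization.AtPrime I.asIdeal) :=
    IsNoetherianRing.of_finite ℤ_[p] (Localization.AtPrime I.asIdeal)
  -- integers are nonzero in the localisation
  have hnat : ∀ n : ℕ, (n : Localization.AtPrime I.asIdeal) = 0 → n = 0 := by
    intro n hn
    by_contra hn0
    rw [← map_natCast (algebraMap (TP p E) (Localization.AtPrime I.asIdeal)) n,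
      IsLocalization.map_eq_zero_iff I.asIdeal.primeCompl] at hn
    obtain ⟨m, hm⟩ := hn
    have hm0 : (m : TP p E) = 0 := natCast_mul_eq_zero p E hn0 (by rw [mul_comm]; exact hm)
    exact m.2 (hm0 ▸ I.asIdeal.zero_mem)
  have hchar : CharZero (Localization.AtPrime I.asIdeal) := charZero_of_inj_zero hnat
  -- `p` lies in the maximal ideal
  have hpmem : (p : Localization.AtPrime I.asIdeal) ∈
      IsLocalRing.maximalIdeal (Localization.AtPrime I.asIdeal) := by
    rw [hmax, ← map_natCast (algebraMap (TP p E) (Localization.AtPrime I.asIdeal)) p]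
    exact Ideal.mem_map_of_mem _ ((hImem _).mpr (Psi_natCast_p p E f))
  -- the prime `𝔓 = ker f` and a local generator
  have h𝔓max := ker_isMaximal p E f
  have h𝔓prime : (RingHom.ker f).IsPrime := h𝔓max.isPrime
  have h𝔓ne : RingHom.ker f ≠ ⊥ := by
    intro hbot
    have h1 := natCast_p_mem_ker p E f
    rw [hbot, Ideal.mem_bot] at h1
    exact (Fact.out : p.Prime).ne_zero (by exact_mod_cast h1)
  obtain ⟨π, hπ, s, hs, hsπ⟩ := exists_local_generator (RingHom.ker f) h𝔓ne
  have hunit : IsUnit (algebraMap (TP p E) (Localization.AtPrime I.asIdeal) (1 ⊗ₜ s)) := by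
    rw [IsLocalization.AtPrime.isUnit_to_map_iff _ I.asIdeal]
    show (1 ⊗ₜ s) ∉ I.asIdeal
    rw [hImem, Psi_one_tmul]
    exact hs
  have hpTP : (p : TP p E) = 1 ⊗ₜ[ℤ] (p : 𝓞 E) := by
    rw [← Algebra.TensorProduct.includeRight_apply, map_natCast]
  -- elements of `𝔓` become multiples of `π`
  have key : ∀ x ∈ RingHom.ker f,
      algebraMap (TP p E) (Localization.AtPrime I.asIdeal) (1 ⊗ₜ x) ∈
        Ideal.span {algebraMap (TP p E) (Localization.AtPrime I.asIdeal) (1 ⊗ₜ π)} := by
    intro x hx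
    obtain ⟨y, hy⟩ := hsπ x hx
    have h1 : algebraMap (TP p E) (Localization.AtPrime I.asIdeal) (1 ⊗ₜ s) *
        algebraMap (TP p E) (Localization.AtPrime I.asIdeal) (1 ⊗ₜ x) =
        algebraMap (TP p E) (Localization.AtPrime I.asIdeal) (1 ⊗ₜ π) *
        algebraMap (TP p E) (Localization.AtPrime I.asIdeal) (1 ⊗ₜ y) := by
      rw [← map_mul, ← map_mul, Algebra.TensorProduct.tmul_mul_tmul,
        Algebra.TensorProduct.tmul_mul_tmul, one_mul, hy]
    obtain ⟨u, hu⟩ := hunit
    rw [← hu] at h1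
    have h2 : algebraMap (TP p E) (Localization.AtPrime I.asIdeal) (1 ⊗ₜ x) =
        algebraMap (TP p E) (Localization.AtPrime I.asIdeal) (1 ⊗ₜ π) *
          (↑u⁻¹ * algebraMap (TP p E) (Localization.AtPrime I.asIdeal) (1 ⊗ₜ y)) := by
      calc algebraMap (TP p E) (Localization.AtPrime I.asIdeal) (1 ⊗ₜ x)
          = ↑u⁻¹ * (↑u * algebraMap (TP p E) (Localization.AtPrime I.asIdeal) (1 ⊗ₜ x)) := by
            rw [← mul_assoc, Units.inv_mul, one_mul]
        _ = ↑u⁻¹ * (algebraMap (TP p E) (Localization.AtPrime I.asIdeal) (1 ⊗ₜ π) *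
              algebraMap (TP p E) (Localization.AtPrime I.asIdeal) (1 ⊗ₜ y)) := by rw [h1]
        _ = _ := by ring
    rw [h2]
    exact Ideal.mul_mem_right _ _ (Ideal.mem_span_singleton_self _)
  -- the maximal ideal is principal
  have hspan : IsLocalRing.maximalIdeal (Localization.AtPrime I.asIdeal) =
      Ideal.span {algebraMap (TP p E) (Localization.AtPrime I.asIdeal) (1 ⊗ₜ π)} := by
    apply le_antisymm
    · rw [hmax, Ideal.map_le_iff_le_comap]
      intro a ha
      rw [Ideal.mem_comap]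
      obtain ⟨x, w, hxw⟩ := exists_decomp p E a
      have hx : x ∈ RingHom.ker f := by
        rw [RingHom.mem_ker, ← Psi_decomp p E f hxw]
        exact (hImem a).mp ha
      rw [hxw, map_add, map_mul]
      refine Ideal.add_mem _ (key x hx) (Ideal.mul_mem_right _ _ ?_)
      rw [hpTP]
      exact key _ (natCast_p_mem_ker p E f)
    · rw [Ideal.span_singleton_le_iff_mem, hmax]
      exact Ideal.mem_map_of_mem _ ((hImem _).mpr (by rw [Psi_one_tmul]; exact hπ))
  -- the generator is not nilpotent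
  have hnil : ∀ n : ℕ,
      algebraMap (TP p E) (Localization.AtPrime I.asIdeal) (1 ⊗ₜ π) ^ n ≠ 0 := by
    intro n hn
    have hp' := hpmem
    rw [hspan] at hp'
    obtain ⟨c, hc⟩ := Ideal.mem_span_singleton'.mp hp'
    have h0 : ((p ^ n : ℕ) : Localization.AtPrime I.asIdeal) = 0 := by
      push_cast
      rw [← hc, mul_pow, hn, mul_zero]
    exact (pow_ne_zero n (Fact.out : p.Prime).ne_zero) (hnat _ h0)
  have hdom : IsDomain (Localization.AtPrime I.asIdeal) :=
    isDomain_of_maximalIdeal_eq_span (R := Localization.AtPrime I.asIdeal) _ hspan hnil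
  have hnf : ¬ IsField (Localization.AtPrime I.asIdeal) := by
    rw [IsLocalRing.isField_iff_maximalIdeal_eq]
    intro hbot
    rw [hbot, Ideal.mem_bot] at hpmem
    exact (Fact.out : p.Prime).ne_zero (hnat p hpmem)
  have hprinc : Submodule.IsPrincipal
      (IsLocalRing.maximalIdeal (Localization.AtPrime I.asIdeal)) := ⟨⟨_, hspan⟩⟩
  have hdvr : IsDiscreteValuationRing (Localization.AtPrime I.asIdeal) :=
    ((IsDiscreteValuationRing.TFAE (Localization.AtPrime I.asIdeal) hnf).out 0 4).mpr hprinc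
  -- finite residue field
  have hfinq : Finite (TP p E ⧸ I.asIdeal) := by
    haveI : Finite (𝓞 E ⧸ RingHom.ker f) := Ideal.finiteQuotientOfFreeOfNeBot _ h𝔓ne
    have hle : RingHom.ker f ≤ Ideal.comap
        (Algebra.TensorProduct.includeRight : 𝓞 E →ₐ[ℤ] TP p E).toRingHom I.asIdeal := by
      intro x hx
      rw [Ideal.mem_comap, hImem]
      show Psi p E f (1 ⊗ₜ x) = 0
      rw [Psi_one_tmul]
      exact hx
    refine Finite.of_surjective (Ideal.quotientMap I.asIdeal
      (Algebra.TensorProduct.includeRight : 𝓞 E →ₐ[ℤ] TP p E).toRingHom hle) ?_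
    intro q
    obtain ⟨a, rfl⟩ := Ideal.Quotient.mk_surjective q
    obtain ⟨x, w, hxw⟩ := exists_decomp p E a
    refine ⟨Ideal.Quotient.mk _ x, ?_⟩
    rw [Ideal.quotientMap_mk, Ideal.Quotient.eq, hImem, map_sub, Psi_decomp p E f hxw]
    show Psi p E f (1 ⊗ₜ x) - f x = 0
    rw [Psi_one_tmul, sub_self]
  have hfinres : Finite (IsLocalRing.ResidueField (Localization.AtPrime I.asIdeal)) :=
    Finite.of_equiv _
      (IsLocalization.AtPrime.equivQuotMaximalIdeal I.asIdeal
        (Localization.AtPrime I.asIdeal)).toEquiv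
  -- the maps
  have hunits : ∀ y : I.asIdeal.primeCompl, IsUnit (Psi p E f y) := fun y => by
    have : Psi p E f y ≠ 0 := fun h => y.2 ((hImem _).mpr h)
    exact this.isUnit
  have hΨR : ∀ a, (IsLocalization.lift (S := Localization.AtPrime I.asIdeal) hunits)
      (algebraMap (TP p E) (Localization.AtPrime I.asIdeal) a) = Psi p E f a :=
    IsLocalization.lift_eq hunits
  have hker : ∀ a ∈ IsLocalRing.maximalIdeal (Localization.AtPrime I.asIdeal),
      (IsLocalization.lift (S := Localization.AtPrime I.asIdeal) hunits) a = 0 := by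
    intro a ha
    have : IsLocalRing.maximalIdeal (Localization.AtPrime I.asIdeal) ≤
        RingHom.ker (IsLocalization.lift (S := Localization.AtPrime I.asIdeal) hunits) := by
      rw [hmax, Ideal.map_le_iff_le_comap]
      intro b hb
      rw [Ideal.mem_comap, RingHom.mem_ker, hΨR]
      exact (hImem b).mp hb
    exact this ha
  haveI hlocal : IsLocalHom (IsLocalization.lift (S := Localization.AtPrime I.asIdeal) hunits) :=
    ⟨fun a ha => by
      by_contra hna
      have hmem : a ∈ IsLocalRing.maximalIdeal (Localization.AtPrime I.asIdeal) :=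
        (IsLocalRing.mem_maximalIdeal a).mpr hna
      rw [hker a hmem] at ha
      exact not_isUnit_zero ha⟩
  refine ⟨Localization.AtPrime I.asIdeal, inferInstance, hdom, hdvr, hcompI, hfinres, hchar,
    hpmem, (algebraMap (TP p E) (Localization.AtPrime I.asIdeal)).comp
      (Algebra.TensorProduct.includeRight : 𝓞 E →ₐ[ℤ] TP p E).toRingHom,
    IsLocalRing.ResidueField.lift
      (IsLocalization.lift (S := Localization.AtPrime I.asIdeal) hunits), fun x => ?_⟩
  rw [IsLocalRing.ResidueField.lift_residue_apply]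
  show (IsLocalization.lift (S := Localization.AtPrime I.asIdeal) hunits)
    (algebraMap (TP p E) (Localization.AtPrime I.asIdeal) (1 ⊗ₜ x)) = f x
  rw [hΨR, Psi_one_tmul]

end construction

end Fermat.Agent.S29.CompleteDVR
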