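import Mathlib
import Fermat.Prelude.Def_GaloisRep_Residual
import Fermat.Prelude.Def_CuspForm_HeckeAlgebra
import Fermat.Prelude.Thm_UpperHalfPlane_eq_of_forall_qCoeff_eq
import Fermat.Agent.S49.Eigenvector
import Fermat.Agent.S22

/-!
# S29 wiring, steps L1-L3: the eigencharacter of a normalised eigenform

* `trivialRep`: the trivial two-dimensional residual representation (used for level `N = 0`).
* `heckeTLin_eq_smul`: a normalised eigenform is an eigenvector of `T_ℓ`, `ℓ ∤ N`, with eigenvalue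
  its `ℓ`-th `q`-coefficient.
* `exists_eigencharacter`: the eigencharacter `heckeAlgebra N 2 S →+* integralClosure ℤ ℂ`
  (integrality from S22).
* `exists_numberField_factor`: a ring homomorphism from a finite `ℤ`-algebra to
  `integralClosure ℤ ℂ` factors through the ring of integers of a number field.
-/

set_option autoImplicit false
set_option linter.style.haveILetI false

open CongruenceSubgroup UpperHalfPlane ModularFormClass
open scoped NumberField

namespace Fermat.Agent.S29.Eigen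

open Fermat.Agent.S49.Eigenvector

/-! ### L1: the trivial representation -/

/-- The trivial two-dimensional residual Galois representation. -/
noncomputable def trivialRep (k : Type) [Field k] : ResidualGaloisRep k where
  V := Fin 2 → k
  finrank_eq := by simp
  ρ := 1
  factorsThroughFiniteLevel := ⟨⊥, inferInstance, fun _ _ => rfl⟩

/-! ### L2: the eigencharacter -/

theorem ext_qCoeff {N : ℕ} {k : ℤ} (f g : CuspForm (Gamma0 N) k)
    (h : ∀ n, qCoeff f n = qCoeff g n) : f = g := by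
  have hΓ := CongruenceSubgroup.one_mem_strictPeriods_Gamma0 N
  have hcusp : Fact (IsCusp OnePoint.infty
      (Subgroup.map (Matrix.SpecialLinearGroup.mapGL ℝ) (Gamma0 N))) :=
    ⟨Subgroup.isCusp_of_mem_strictPeriods one_pos hΓ⟩
  exact DFunLike.coe_injective (UpperHalfPlane.eq_of_forall_qCoeff_eq
    (SlashInvariantFormClass.periodic_comp_ofComplex f hΓ) (CuspFormClass.holo f)
    (ModularFormClass.bdd_at_infty f)
    (SlashInvariantFormClass.periodic_comp_ofComplex g hΓ) (CuspFormClass.holo g)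
    (ModularFormClass.bdd_at_infty g) h)

/-- A normalised eigenform is an eigenvector of `T_ℓ` for `ℓ ∤ N`. -/
theorem heckeTLin_eq_smul {N : ℕ} {g : CuspForm (Gamma0 N) 2} (hg : g.IsNormalizedEigenform)
    {ℓ : ℕ} (hℓ : ℓ.Prime) (hℓN : ¬ ℓ ∣ N) :
    CuspForm.heckeTLin 2 hℓ hℓN g = qCoeff g ℓ • g := by
  apply ext_qCoeff
  intro n
  rw [qCoeff_heckeTLin, qCoeff_smul]
  have h21 : ((ℓ : ℂ)) ^ ((2 : ℤ) - 1) = ℓ := by norm_num
  rw [h21]
  rcases Nat.eq_zero_or_pos n with rfl | hn
  · simp [qCoeff_zero_eq]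
  obtain ⟨r, m, hm, rfl⟩ := Nat.exists_eq_pow_mul_and_not_dvd hn.ne' ℓ hℓ.ne_one
  have hcop : ∀ j : ℕ, (ℓ ^ j).Coprime m := fun j =>
    Nat.Coprime.pow_left j ((Nat.Prime.coprime_iff_not_dvd hℓ).mpr hm)
  rcases r with _ | r
  · rw [pow_zero, one_mul, if_neg hm, add_zero, mul_comm m ℓ]
    have := hg.qCoeff_mul_of_coprime ℓ m (by simpa using hcop 1)
    rw [this]
  · have hdvd : ℓ ∣ ℓ ^ (r + 1) * m := Dvd.dvd.mul_right (dvd_pow_self ℓ (by omega)) m
    rw [if_pos hdvd]
    have e1 : ℓ ^ (r + 1) * m * ℓ = ℓ ^ (r + 2) * m := by ring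
    have e2 : ℓ ^ (r + 1) * m / ℓ = ℓ ^ r * m := by
      rw [pow_succ, mul_assoc, mul_comm ℓ m, ← mul_assoc]
      exact Nat.mul_div_cancel _ hℓ.pos
    rw [e1, e2, hg.qCoeff_mul_of_coprime _ _ (hcop (r + 2)),
      hg.qCoeff_mul_of_coprime _ _ (hcop r), hg.qCoeff_mul_of_coprime _ _ (hcop (r + 1)),
      hg.qCoeff_prime_pow_of_not_dvd ℓ r hℓ hℓN]
    ring

section character

variable {N : ℕ} [NeZero N] {g : CuspForm (Gamma0 N) 2} (hg : g.IsNormalizedEigenform)
  {S : Set ℕ} (hNS : ∀ q : ℕ, q.Prime → q ∣ N → q ∈ S)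

include hg hNS in
/-- Every element of the Hecke algebra (away from a set containing the primes of the level) has
the eigenform as an eigenvector. -/
theorem exists_eigenvalue (t : Module.End ℂ (CuspForm (Gamma0 N) 2))
    (ht : t ∈ CuspForm.heckeAlgebra N 2 S) : ∃ c : ℂ, t g = c • g := by
  induction ht using Algebra.adjoin_induction with
  | mem T hT =>
    rcases hT with ⟨ℓ, hℓ, hℓN, -, rfl⟩ | ⟨q, hqN, hq, hqS, rfl⟩
    · exact ⟨_, heckeTLin_eq_smul hg hℓ hℓN⟩
    · exact absurd (hNS q hq hqN) hqS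
  | algebraMap n =>
    refine ⟨(n : ℂ), ?_⟩
    rw [Algebra.algebraMap_eq_smul_one, LinearMap.smul_apply, Module.End.one_apply]
    exact (Int.cast_smul_eq_zsmul ℂ n g).symm
  | add a b _ _ ha hb =>
    obtain ⟨c, hc⟩ := ha
    obtain ⟨d, hd⟩ := hb
    exact ⟨c + d, by rw [LinearMap.add_apply, hc, hd, add_smul]⟩
  | mul a b _ _ ha hb =>
    obtain ⟨c, hc⟩ := ha
    obtain ⟨d, hd⟩ := hb
    exact ⟨d * c, by rw [Module.End.mul_apply, hd, map_smul, hc, smul_smul]⟩

include hg hNS in
theorem apply_eq_smul (t : CuspForm.heckeAlgebra N 2 S) :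
    (t : Module.End ℂ (CuspForm (Gamma0 N) 2)) g =
      qCoeff ((t : Module.End ℂ (CuspForm (Gamma0 N) 2)) g) 1 • g := by
  obtain ⟨c, hc⟩ := exists_eigenvalue hg hNS t.1 t.2
  rw [hc, qCoeff_smul, hg.qCoeff_one, mul_one]

/-- The eigencharacter of a normalised eigenform, with values in `ℂ`. -/
noncomputable def eigenChar : CuspForm.heckeAlgebra N 2 S →+* ℂ where
  toFun t := qCoeff ((t : Module.End ℂ (CuspForm (Gamma0 N) 2)) g) 1
  map_one' := by
    show qCoeff ((1 : Module.End ℂ (CuspForm (Gamma0 N) 2)) g) 1 = 1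
    rw [Module.End.one_apply, hg.qCoeff_one]
  map_mul' a b := by
    show qCoeff (((a : Module.End ℂ (CuspForm (Gamma0 N) 2)) *
      (b : Module.End ℂ (CuspForm (Gamma0 N) 2))) g) 1 = _
    rw [Module.End.mul_apply, apply_eq_smul hg hNS b, map_smul, qCoeff_smul, ← apply_eq_smul hg hNS b,
      mul_comm]
  map_zero' := by
    show qCoeff ((0 : Module.End ℂ (CuspForm (Gamma0 N) 2)) g) 1 = 0
    rw [LinearMap.zero_apply]
    have := qCoeff_smul (0 : ℂ) g 1
    rw [zero_smul, zero_mul] at this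
    exact this
  map_add' a b := by
    show qCoeff (((a : Module.End ℂ (CuspForm (Gamma0 N) 2)) +
      (b : Module.End ℂ (CuspForm (Gamma0 N) 2))) g) 1 = _
    rw [LinearMap.add_apply]
    conv_lhs => rw [apply_eq_smul hg hNS a, apply_eq_smul hg hNS b, ← add_smul]
    rw [qCoeff_smul, hg.qCoeff_one, mul_one]

theorem eigenChar_T {ℓ : ℕ} (hℓ : ℓ.Prime) (hℓN : ¬ ℓ ∣ N) (hℓS : ℓ ∉ S) :
    eigenChar hg hNS (CuspForm.heckeAlgebra.T hℓ hℓN hℓS) = qCoeff g ℓ := by
  show qCoeff ((CuspForm.heckeTLin 2 hℓ hℓN) g) 1 = _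
  rw [heckeTLin_eq_smul hg hℓ hℓN, qCoeff_smul, hg.qCoeff_one, mul_one]

/-- The eigenvalues are algebraic integers (by S22). -/
theorem isIntegral_eigenChar (t : CuspForm.heckeAlgebra N 2 S) :
    IsIntegral ℤ (eigenChar hg hNS t) := by
  haveI : Module.Finite ℤ (CuspForm.heckeAlgebra N 2 S) := Fermat.Agent.S22.result N 2 S
  have ht : IsIntegral ℤ t := IsIntegral.of_finite ℤ t
  exact ht.map (eigenChar hg hNS).toIntAlgHom

include hg hNS in
/-- **The eigencharacter** with values in the ring of all algebraic integers. -/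
theorem exists_eigencharacter :
    ∃ χ₀ : CuspForm.heckeAlgebra N 2 S →+* integralClosure ℤ ℂ,
      ∀ (ℓ : ℕ) (hℓ : ℓ.Prime) (hℓN : ¬ ℓ ∣ N) (hℓS : ℓ ∉ S),
        ((χ₀ (CuspForm.heckeAlgebra.T hℓ hℓN hℓS) : integralClosure ℤ ℂ) : ℂ) = qCoeff g ℓ :=
  ⟨(eigenChar hg hNS).codRestrict (integralClosure ℤ ℂ) (isIntegral_eigenChar hg hNS),
    fun _ hℓ hℓN hℓS => eigenChar_T hg hNS hℓ hℓN hℓS⟩

end character

/-! ### L3: a number field carrying the eigenvalues -/

/-- A ring homomorphism from a finite `ℤ`-algebra to the ring of all algebraic integers factors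
through the ring of integers of a number field. -/
theorem exists_numberField_factor {T : Type*} [CommRing T] [Module.Finite ℤ T]
    (χ₀ : T →+* integralClosure ℤ ℂ) :
    ∃ (E : Type) (_ : Field E) (_ : NumberField E) (χE : T →+* 𝓞 E)
      (incl : 𝓞 E →+* integralClosure ℤ ℂ), ∀ t, incl (χE t) = χ₀ t := by
  classical
  obtain ⟨s, hs⟩ := Module.Finite.fg_top (R := ℤ) (M := T)
  let E : IntermediateField ℚ ℂ :=
    IntermediateField.adjoin ℚ ((fun t : T => ((χ₀ t : integralClosure ℤ ℂ) : ℂ)) '' (s : Set T))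
  have hfin : ((fun t : T => ((χ₀ t : integralClosure ℤ ℂ) : ℂ)) '' (s : Set T)).Finite :=
    (Finset.finite_toSet s).image _
  haveI := hfin.to_subtype
  haveI hfd : FiniteDimensional ℚ E := by
    refine IntermediateField.finiteDimensional_adjoin fun x hx => ?_
    obtain ⟨t, -, rfl⟩ := hx
    exact (χ₀ t).2.tower_top
  have hmem : ∀ t : T, ((χ₀ t : integralClosure ℤ ℂ) : ℂ) ∈ E := by
    intro t
    have ht : t ∈ Submodule.span ℤ (s : Set T) := hs ▸ Submodule.mem_top
    induction ht using Submodule.span_induction with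
    | mem x hx => exact IntermediateField.subset_adjoin ℚ _ ⟨x, hx, rfl⟩
    | zero => simp
    | add x y _ _ hx hy =>
      rw [map_add]
      exact add_mem hx hy
    | smul n x _ hx =>
      rw [zsmul_eq_mul, map_mul, map_intCast]
      exact mul_mem (intCast_mem E n) hx
  haveI : NumberField E := ⟨⟩
  have hint : ∀ t : T, IsIntegral ℤ (⟨((χ₀ t : integralClosure ℤ ℂ) : ℂ), hmem t⟩ : E) := by
    intro t
    refine (isIntegral_algebraMap_iff (B := ℂ) (algebraMap E ℂ).injective).mp ?_
    exact (χ₀ t).2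
  refine ⟨E, inferInstance, inferInstance,
    { toFun := fun t => ⟨⟨((χ₀ t : integralClosure ℤ ℂ) : ℂ), hmem t⟩, hint t⟩
      map_one' := by ext; simp
      map_mul' := fun a b => by ext; simp
      map_zero' := by ext; simp
      map_add' := fun a b => by ext; simp },
    { toFun := fun x => ⟨((x : E) : ℂ), x.2.map (IsScalarTower.toAlgHom ℤ E ℂ)⟩
      map_one' := by ext; simp
      map_mul' := fun a b => by ext; simp
      map_zero' := by ext; simp
      map_add' := fun a b => by ext; simp }, fun t => ?_⟩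
  ext
  rfl

end Fermat.Agent.S29.Eigen
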