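import Mathlib

/-!
# S29 wiring, step L5a: extending an embedding of residue fields

`exists_residue_extension`: a field `k` of characteristic `p` receiving a ring homomorphism from
`integralClosure ℤ ℂ` contains all roots of unity, hence every embedding `κ' → k` of a field extends
along any extension `κ' → κ''` with `κ''` finite.
-/

set_option autoImplicit false
set_option linter.style.haveILetI false

open Polynomial

namespace Fermat.Agent.S29.ResidueExt

/-- `X ^ n - 1` splits over any field receiving a ring homomorphism from `integralClosure ℤ ℂ`. -/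
theorem splits_X_pow_sub_one {k : Type*} [Field k] (φ : integralClosure ℤ ℂ →+* k) {n : ℕ}
    (hn : 0 < n) : (X ^ n - 1 : k[X]).Splits := by
  have hn0 : n ≠ 0 := hn.ne'
  -- a primitive `n`-th root of unity in `integralClosure ℤ ℂ`
  have hζ := Complex.isPrimitiveRoot_exp n hn0
  set ζ : ℂ := Complex.exp (2 * Real.pi * Complex.I / n) with hζdef
  have hint : IsIntegral ℤ ζ := by
    refine ⟨X ^ n - 1, monic_X_pow_sub_C 1 hn0, ?_⟩
    simp [hζ.pow_eq_one]
  let z : integralClosure ℤ ℂ := ⟨ζ, hint⟩
  have hz : IsPrimitiveRoot z n := by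
    have : IsPrimitiveRoot ((algebraMap (integralClosure ℤ ℂ) ℂ) z) n := hζ
    exact IsPrimitiveRoot.of_map_of_injective (f := algebraMap (integralClosure ℤ ℂ) ℂ)
      this Subtype.val_injective
  have hprod := X_pow_sub_one_eq_prod hn hz
  have hmap := congrArg (Polynomial.map φ) hprod
  rw [Polynomial.map_sub, Polynomial.map_pow, Polynomial.map_X, Polynomial.map_one,
    Polynomial.map_prod] at hmap
  rw [hmap]
  refine Splits.prod fun ζ' _ => ?_
  rw [Polynomial.map_sub, Polynomial.map_X, Polynomial.map_C]
  exact Splits.X_sub_C _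

/-- Extension of an embedding of residue fields into a field receiving `integralClosure ℤ ℂ`. -/
theorem exists_residue_extension {k : Type*} [Field k] (φ : integralClosure ℤ ℂ →+* k)
    {κ' κ'' : Type*} [Field κ'] [Field κ''] [Finite κ''] (i : κ' →+* κ'') (j : κ' →+* k) :
    ∃ J : κ'' →+* k, J.comp i = j := by
  classical
  letI : Fintype κ'' := Fintype.ofFinite κ''
  letI : Algebra κ' κ'' := i.toAlgebra
  letI : Algebra κ' k := j.toAlgebra
  have hcard : 1 < Fintype.card κ'' := Fintype.one_lt_card
  have hsplit : ((X ^ Fintype.card κ'' - X : κ'[X]).map (algebraMap κ' k)).Splits := by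
    rw [Polynomial.map_sub, Polynomial.map_pow, Polynomial.map_X]
    have h1 : (X ^ Fintype.card κ'' - X : k[X]) = X * (X ^ (Fintype.card κ'' - 1) - 1) := by
      rw [mul_sub, mul_one, ← pow_succ']
      congr 2
      omega
    rw [h1]
    exact Splits.X.mul (splits_X_pow_sub_one φ (by omega))
  let J : κ'' →ₐ[κ'] k :=
    Polynomial.IsSplittingField.lift κ'' (X ^ Fintype.card κ'' - X : κ'[X]) hsplit
  refine ⟨J.toRingHom, ?_⟩
  ext x
  exact J.commutes x

end Fermat.Agent.S29.ResidueExt
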