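import Fermat.Prelude.Def_CuspForm_HeckeGaloisRepDatum
import Fermat.Agent.S29.Eigen
import Fermat.Agent.S29.CompleteDVR
import Fermat.Agent.S29.ResidueExt

/-!
# S29 from S30 (+ S22)

`of_S30`: the frozen statement of S30 (the `p`-adic Galois representation attached to a point of
the Hecke algebra) implies the frozen statement of S29 (the mod-`p` Galois representation of a
normalised weight-2 eigenform on `Γ₀(N)`).

Proof.  `N = 0` is vacuous.  For `N ≥ 1` let `S = {p} ∪ {primes dividing N}`.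
* `Eigen`: the eigencharacter `χ₀ : 𝕋 → ℤ̄` of `g` (integrality by S22) factors through `𝓞 E` for a
  number field `E`.
* `CompleteDVR`: a complete DVR `𝒪'` with `ι : 𝓞 E → 𝒪'` and an embedding `j` of its residue field
  into `k` compatible with `φ`.
* S30 for `ι ∘ χ_E` gives `𝒪'' ⊇ 𝒪'` and `ρ : G_ℚ → GL₂(𝒪'')`.
* `ResidueExt`: `j` extends to the residue field of `𝒪''`; reduce `ρ` and base change to `k`.

Once `Fermat.Agent.S30.result` exists, `Fermat/Agent/S29.lean` is the S29 template with the two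
extra imports `Fermat.Agent.S29.Wiring`, `Fermat.Agent.S30` and the proof term
`Fermat.Agent.S29.Wiring.of_S30 @Fermat.Agent.S30.result hg hp φ`
(checked against a stub of S30 with the template statement, and against the frozen statements).
-/

set_option autoImplicit false
set_option linter.style.haveILetI false

open Polynomial
open scoped NumberField

namespace Fermat.Agent.S29.Wiring

/-- The frozen statement of S30, verbatim. -/
def S30Statement : Prop :=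
    ∀ (p : ℕ) [Fact p.Prime] (N : ℕ) [NeZero N] (S : Finset ℕ)
      (_hpS : p ∈ S) (_hNS : ∀ q : ℕ, q.Prime → q ∣ N → q ∈ S)
      (𝒪' : Type) [CommRing 𝒪'] [IsDomain 𝒪'] [IsDiscreteValuationRing 𝒪']
      [IsAdicComplete (IsLocalRing.maximalIdeal 𝒪') 𝒪'] [Finite (IsLocalRing.ResidueField 𝒪')]
      [CharZero 𝒪'] (_hp𝒪' : (p : 𝒪') ∈ IsLocalRing.maximalIdeal 𝒪')
      (χ : CuspForm.heckeAlgebra N 2 (↑S : Set ℕ) →+* 𝒪'),
      ∃ (𝒪'' : Type) (_ : CommRing 𝒪'') (_ : IsDomain 𝒪'') (_ : IsDiscreteValuationRing 𝒪'')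
        (_ : IsAdicComplete (IsLocalRing.maximalIdeal 𝒪'') 𝒪'')
        (_ : Finite (IsLocalRing.ResidueField 𝒪'')) (_ : CharZero 𝒪'')
        (_ : Algebra 𝒪' 𝒪'') (_ : Module.Finite 𝒪' 𝒪'') (_ : IsLocalHom (algebraMap 𝒪' 𝒪'')),
      Function.Injective (algebraMap 𝒪' 𝒪'') ∧
      ∃ ρ : GaloisRepAdic 𝒪'',
        (∀ (ℓ : ℕ) (hℓ : ℓ.Prime) (hℓN : ¬ ℓ ∣ N) (hℓS : ℓ ∉ (↑S : Set ℕ)),
          ∀ A : ValuationSubring (AlgebraicClosure ℚ), A.LiesOverPrime ℓ →
            ∀ σ : AlgebraicClosure ℚ ≃ₐ[ℚ] AlgebraicClosure ℚ, A.IsFrobeniusAt σ ℓ →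
              LinearMap.charpoly (ρ.ρ σ) =
                X ^ 2 - C (algebraMap 𝒪' 𝒪'' (χ (CuspForm.heckeAlgebra.T hℓ hℓN hℓS))) * X
                  + C ((ℓ : 𝒪''))) ∧
        (∀ q : ℕ, q.Prime → ¬ q ∣ N → q ≠ p → ρ.IsUnramifiedAt q)

/-! ### Transport lemmas -/

theorem residual_charpoly {A : Type} [CommRing A] [IsLocalRing A] (ρ : GaloisRepAdic A)
    (σ : AlgebraicClosure ℚ ≃ₐ[ℚ] AlgebraicClosure ℚ) :
    LinearMap.charpoly (ρ.residual.ρ σ) =
      (LinearMap.charpoly (ρ.ρ σ)).map (IsLocalRing.residue A) :=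
  LinearMap.charpoly_baseChange (ρ.ρ σ) (IsLocalRing.ResidueField A)

theorem residual_eq_one {A : Type} [CommRing A] [IsLocalRing A] (ρ : GaloisRepAdic A)
    (σ : AlgebraicClosure ℚ ≃ₐ[ℚ] AlgebraicClosure ℚ) (h : ρ.ρ σ = 1) :
    ρ.residual.ρ σ = 1 := by
  show (ρ.ρ σ).baseChange (IsLocalRing.ResidueField A) = 1
  rw [h, LinearMap.baseChange_one]

theorem baseChangeAlong_charpoly {k k' : Type} [Field k] [Field k'] (φ : k →+* k')
    (ρ : ResidualGaloisRep k) (σ : AlgebraicClosure ℚ ≃ₐ[ℚ] AlgebraicClosure ℚ) :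
    LinearMap.charpoly ((ρ.baseChangeAlong φ).ρ σ) = (LinearMap.charpoly (ρ.ρ σ)).map φ := by
  letI : Algebra k k' := φ.toAlgebra
  exact LinearMap.charpoly_baseChange (ρ.ρ σ) k'

theorem baseChangeAlong_eq_one {k k' : Type} [Field k] [Field k'] (φ : k →+* k')
    (ρ : ResidualGaloisRep k) (σ : AlgebraicClosure ℚ ≃ₐ[ℚ] AlgebraicClosure ℚ)
    (h : ρ.ρ σ = 1) : (ρ.baseChangeAlong φ).ρ σ = 1 := by
  letI : Algebra k k' := φ.toAlgebra
  show (ρ.ρ σ).baseChange k' = 1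
  rw [h, LinearMap.baseChange_one]

/-! ### The wiring -/

/-- **S29 from S30.** -/
theorem of_S30 (h30 : S30Statement)
    {N : ℕ} {g : CuspForm (CongruenceSubgroup.Gamma0 N) 2} (hg : g.IsNormalizedEigenform)
    {p : ℕ} (hp : p.Prime) {k : Type} [Field k] [CharP k p]
    (φ : integralClosure ℤ ℂ →+* k) :
    ∃ ρ : ResidualGaloisRep k, ρ.IsAttachedTo g φ ∧
      ∀ ℓ : ℕ, ℓ.Prime → ¬ ℓ ∣ N * p → ρ.IsUnramifiedAt ℓ := by
  classical
  rcases Nat.eq_zero_or_pos N with rfl | hN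
  · refine ⟨Eigen.trivialRep k, ?_, ?_⟩
    · intro ℓ _ hℓN
      exact absurd (dvd_zero ℓ) hℓN
    · intro ℓ _ hℓ
      exact absurd (by simp) hℓ
  haveI : NeZero N := ⟨hN.ne'⟩
  haveI : Fact p.Prime := ⟨hp⟩
  have hpS : p ∈ insert p N.primeFactors := Finset.mem_insert_self _ _
  have hNS : ∀ q : ℕ, q.Prime → q ∣ N → q ∈ insert p N.primeFactors := fun q hq hqN =>
    Finset.mem_insert_of_mem (Nat.mem_primeFactors.mpr ⟨hq, hqN, hN.ne'⟩)
  have hNS' : ∀ q : ℕ, q.Prime → q ∣ N → q ∈ (↑(insert p N.primeFactors) : Set ℕ) :=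
    fun q hq hqN => Finset.mem_coe.mpr (hNS q hq hqN)
  -- the eigencharacter and its number field
  obtain ⟨χ₀, hχ₀⟩ := Eigen.exists_eigencharacter hg hNS'
  haveI : Module.Finite ℤ (CuspForm.heckeAlgebra N 2 (↑(insert p N.primeFactors) : Set ℕ)) :=
    Fermat.Agent.S22.result N 2 _
  obtain ⟨E, _, _, χE, incl, hincl⟩ := Eigen.exists_numberField_factor χ₀
  -- the complete DVR
  obtain ⟨𝒪', _, _, _, _, _, _, hp𝒪', ι, j, hj⟩ :=
    CompleteDVR.exists_complete_dvr p E (φ.comp incl)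
  -- S30
  obtain ⟨𝒪'', _, _, _, _, _, _, _, _, hlocal, -, ρ, hfrob, hunr⟩ :=
    h30 p N (insert p N.primeFactors) hpS hNS 𝒪' hp𝒪' (ι.comp χE)
  -- extend the embedding of residue fields
  obtain ⟨J, hJ⟩ := ResidueExt.exists_residue_extension φ
    (IsLocalRing.ResidueField.map (algebraMap 𝒪' 𝒪'')) j
  refine ⟨ρ.residual.baseChangeAlong J, ?_, ?_⟩
  · intro ℓ hℓ hℓN hℓk A hA σ hσ
    have hℓp : ℓ ≠ p := by
      rintro rfl
      exact hℓk (CharP.cast_eq_zero k ℓ)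
    have hℓS : ℓ ∉ (↑(insert p N.primeFactors) : Set ℕ) := by
      rw [Finset.mem_coe, Finset.mem_insert, Nat.mem_primeFactors]
      rintro (h | h)
      · exact hℓp h
      · exact hℓN h.2.1
    refine ⟨χ₀ (CuspForm.heckeAlgebra.T hℓ hℓN hℓS), hχ₀ ℓ hℓ hℓN hℓS, ?_⟩
    rw [baseChangeAlong_charpoly, residual_charpoly, hfrob ℓ hℓ hℓN hℓS A hA σ hσ]
    have hkey : J (IsLocalRing.residue 𝒪'' (algebraMap 𝒪' 𝒪''
        ((ι.comp χE) (CuspForm.heckeAlgebra.T hℓ hℓN hℓS)))) =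
        φ (χ₀ (CuspForm.heckeAlgebra.T hℓ hℓN hℓS)) := by
      rw [← IsLocalRing.ResidueField.map_residue, ← RingHom.comp_apply J, hJ, RingHom.comp_apply,
        hj, RingHom.comp_apply, hincl]
    simp only [Polynomial.map_add, Polynomial.map_sub, Polynomial.map_mul, Polynomial.map_pow,
      Polynomial.map_X, Polynomial.map_C, Polynomial.map_natCast, map_natCast, hkey]
  · intro ℓ hℓ hℓNp A hA σ hσ
    have hℓN : ¬ ℓ ∣ N := fun h => hℓNp (Dvd.dvd.mul_right h p)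
    have hℓp : ℓ ≠ p := by
      rintro rfl
      exact hℓNp (dvd_mul_left ℓ N)
    exact baseChangeAlong_eq_one J _ σ (residual_eq_one ρ σ (hunr ℓ hℓ hℓN hℓp A hA σ hσ))

end Fermat.Agent.S29.Wiring
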