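import Mathlib
import Fermat.Agent.Lib.DVRCompletion

/-!
# S29 wiring, brick L4: the complete DVR receiving an integral eigencharacter

`Zb := integralClosure ℤ ℂ`.  Given a ring `T` that is finite over `ℤ`, a ring homomorphism
`ψ : T →+* Zb` and a maximal ideal `m` of `Zb` over a prime `p`, we construct a complete discrete
valuation ring `O'` of characteristic zero with finite residue field of characteristic `p`,
a ring homomorphism `χ : T →+* O'` and an embedding `ι` of the residue field of `O'` into
`Zb ⧸ m` with `ι (χ t mod 𝔪) = ψ t mod m`.  We also show that `Zb ⧸ m` is algebraically closed,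
so that `ι` extends to the residue field of any finite local extension of `O'`.
-/

set_option autoImplicit false
set_option linter.unusedSectionVars false

namespace Fermat.Agent.S29.CoeffRing

open IsLocalRing Polynomial

/-- The ring of all algebraic integers in `ℂ`. -/
abbrev Zb : Type := integralClosure ℤ ℂ

theorem natCast_ne_zero_Zb {n : ℕ} (hn : n ≠ 0) : (n : Zb) ≠ 0 := by
  intro h
  have h2 := congrArg (fun z : Zb => (z : ℂ)) h
  simp only [ZeroMemClass.coe_zero] at h2
  exact hn (by exact_mod_cast h2)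

/-- A nonzero prime ideal of `Zb` is maximal. -/
theorem isMaximal_of_isPrime (P : Ideal Zb) (hP : P.IsPrime) (h0 : P ≠ ⊥) : P.IsMaximal :=
  Ideal.IsPrime.isMaximal hP h0

/-- The kernel of a ring homomorphism from `Zb` to a field of characteristic `p` is maximal. -/
theorem ker_isMaximal {p : ℕ} [Fact p.Prime] {k : Type*} [Field k] [CharP k p] (φ : Zb →+* k) :
    (RingHom.ker φ).IsMaximal := by
  refine isMaximal_of_isPrime _ (RingHom.ker_isPrime φ) fun h => ?_
  have hp : (p : Zb) ∈ RingHom.ker φ := by
    rw [RingHom.mem_ker, map_natCast]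
    exact CharP.cast_eq_zero k p
  rw [h, Ideal.mem_bot] at hp
  exact natCast_ne_zero_Zb (Fact.out : p.Prime).ne_zero hp

theorem natCast_mem_ker {p : ℕ} {k : Type*} [Field k] [CharP k p] (φ : Zb →+* k) :
    (p : Zb) ∈ RingHom.ker φ := by
  rw [RingHom.mem_ker, map_natCast]
  exact CharP.cast_eq_zero k p

/-- The residue fields of `Zb` are algebraically closed. -/
theorem isAlgClosed_quot (m : Ideal Zb) [m.IsMaximal] :
    @IsAlgClosed (Zb ⧸ m) (Ideal.Quotient.field m) := by
  let _ := Ideal.Quotient.field m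
  refine IsAlgClosed.of_exists_root _ fun q hq hirr => ?_
  have hsurj : Function.Surjective (Ideal.Quotient.mk m) := Ideal.Quotient.mk_surjective
  have hlift : q ∈ Polynomial.lifts (Ideal.Quotient.mk m) := by
    obtain ⟨q', hq'⟩ := Polynomial.map_surjective (Ideal.Quotient.mk m) hsurj q
    exact ⟨q', hq'⟩
  obtain ⟨q', hq', hdeg, hmonic⟩ := Polynomial.lifts_and_natDegree_eq_and_monic hlift hq
  have hdeg0 : (q'.map (algebraMap Zb ℂ)).degree ≠ 0 := by
    rw [Polynomial.degree_map_eq_of_injective (FaithfulSMul.algebraMap_injective Zb ℂ),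
      Polynomial.degree_eq_natDegree hmonic.ne_zero, hdeg]
    have := Polynomial.natDegree_pos_iff_degree_pos.mpr (Polynomial.degree_pos_of_irreducible hirr)
    exact_mod_cast this.ne'
  obtain ⟨z, hz⟩ := IsAlgClosed.exists_root (q'.map (algebraMap Zb ℂ)) hdeg0
  have hzint : IsIntegral Zb z := ⟨q', hmonic, by
    rw [← Polynomial.eval_map]; exact hz⟩
  have hzint' : IsIntegral ℤ z := isIntegral_trans z hzint
  let z' : Zb := ⟨z, hzint'⟩
  have hz' : q'.eval z' = 0 := by
    apply FaithfulSMul.algebraMap_injective Zb ℂ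
    rw [map_zero, ← Polynomial.eval₂_at_apply, ← Polynomial.eval_map]
    exact hz
  refine ⟨Ideal.Quotient.mk m z', ?_⟩
  rw [← hq', Polynomial.eval_map, Polynomial.eval₂_at_apply, hz', map_zero]

/-- Ring homomorphisms into an algebraically closed field extend along algebraic extensions. -/
theorem exists_extension {κ κ' Ω : Type*} [Field κ] [Field κ'] [Field Ω] [IsAlgClosed Ω]
    [Algebra κ κ'] [Algebra.IsAlgebraic κ κ'] (ι : κ →+* Ω) :
    ∃ ι' : κ' →+* Ω, ι'.comp (algebraMap κ κ') = ι := by
  let _ : Algebra κ Ω := ι.toAlgebra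
  let f : κ' →ₐ[κ] Ω := IsAlgClosed.lift
  exact ⟨f.toRingHom, f.comp_algebraMap⟩

section Abstract

variable {T : Type} [CommRing T] (Fld : Type) [Field Fld] [CharZero Fld] [Algebra ℚ Fld]
  [FiniteDimensional ℚ Fld] (e : Fld →+* ℂ) (ψ : T →+* Zb) (g : T →+* Fld)

/-- The ring of integers of `Fld`. -/
abbrev RInt : Type := integralClosure ℤ Fld

theorem isDedekindDomain_RInt : IsDedekindDomain (RInt Fld) :=
  integralClosure.isDedekindDomain ℤ ℚ Fld

theorem finite_RInt : Module.Finite ℤ (RInt Fld) :=
  IsIntegralClosure.finite ℤ ℚ Fld (RInt Fld)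

theorem free_RInt : Module.Free ℤ (RInt Fld) :=
  IsIntegralClosure.module_free ℤ ℚ Fld (RInt Fld)

/-- The map from the ring of integers of `Fld` to `Zb` induced by `e : Fld →+* ℂ`. -/
noncomputable def jMap : RInt Fld →+* Zb :=
  (e.comp (algebraMap (RInt Fld) Fld)).codRestrict (integralClosure ℤ ℂ) fun x => by
    have hx : IsIntegral ℤ (x : Fld) := x.2
    exact hx.map e.toIntAlgHom

theorem coe_jMap (x : RInt Fld) : ((jMap Fld e x : Zb) : ℂ) = e (x : Fld) := rfl

/-- The map `T → 𝓞` induced by `g : T →+* Fld` with integral values. -/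
noncomputable def chi1 (hg : ∀ t, e (g t) = (ψ t : ℂ)) : T →+* RInt Fld :=
  g.codRestrict (integralClosure ℤ Fld) fun t => by
    have h1 : IsIntegral ℤ (e.toIntAlgHom (g t)) := by
      have : e.toIntAlgHom (g t) = (ψ t : ℂ) := hg t
      rw [this]
      exact (ψ t).2
    exact (isIntegral_algHom_iff e.toIntAlgHom e.injective).mp h1

theorem jMap_chi1 (hg : ∀ t, e (g t) = (ψ t : ℂ)) (t : T) :
    jMap Fld e (chi1 Fld e ψ g hg t) = ψ t :=
  Subtype.ext (hg t)

/-- The abstract form of the main construction: `Fld` is a number field with an embedding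
`e` into `ℂ` through which `ψ` factors. -/
theorem exists_coeffRing_of_field (hg : ∀ t, e (g t) = (ψ t : ℂ))
    {p : ℕ} [Fact p.Prime] (m : Ideal Zb) [m.IsMaximal] (hp : (p : Zb) ∈ m) :
    ∃ (O' : Type) (_ : CommRing O') (_ : IsDomain O') (_ : IsDiscreteValuationRing O')
      (_ : IsAdicComplete (IsLocalRing.maximalIdeal O') O')
      (_ : Finite (IsLocalRing.ResidueField O')) (_ : CharZero O'),
      (p : O') ∈ IsLocalRing.maximalIdeal O' ∧
      ∃ (χ : T →+* O') (ι : IsLocalRing.ResidueField O' →+* Zb ⧸ m),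
        ∀ t, ι (IsLocalRing.residue O' (χ t)) = Ideal.Quotient.mk m (ψ t) := by
  classical
  -- the ring of integers and its prime
  have hDed : IsDedekindDomain (RInt Fld) := isDedekindDomain_RInt Fld
  have hfin : Module.Finite ℤ (RInt Fld) := finite_RInt Fld
  have hfree : Module.Free ℤ (RInt Fld) := free_RInt Fld
  let j : RInt Fld →+* Zb := jMap Fld e
  let P : Ideal (RInt Fld) := m.comap j
  have hPprime : P.IsPrime := Ideal.comap_isPrime j m
  have hpP : (p : RInt Fld) ∈ P := by
    show j (p : RInt Fld) ∈ m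
    rw [map_natCast]
    exact hp
  have hPne : P ≠ ⊥ := by
    intro h
    rw [h, Ideal.mem_bot] at hpP
    exact (Nat.cast_ne_zero.mpr (Fact.out : p.Prime).ne_zero) hpP
  have hPmax : P.IsMaximal := Ideal.IsPrime.isMaximal hPprime hPne
  have hPfin : Finite (RInt Fld ⧸ P) := Ideal.finiteQuotientOfFreeOfNeBot P hPne
  -- the localisation
  let R : Type := Localization.AtPrime P
  have hRdom : IsDomain R :=
    IsLocalization.isDomain_localization (Ideal.primeCompl_le_nonZeroDivisors P)
  have hRdvr : IsDiscreteValuationRing R :=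
    IsLocalization.AtPrime.isDiscreteValuationRing_of_dedekind_domain (RInt Fld) hPne R
  have hRinj : Function.Injective (algebraMap (RInt Fld) R) :=
    IsLocalization.injective R (Ideal.primeCompl_le_nonZeroDivisors P)
  have hRchar : CharZero R := charZero_of_injective_algebraMap hRinj
  have hRfin : Finite (ResidueField R) :=
    Finite.of_equiv _ (IsLocalization.AtPrime.equivQuotMaximalIdeal P R).toEquiv
  -- the map to the residue field of `Zb`
  let _ : Field (Zb ⧸ m) := Ideal.Quotient.field m
  let fC : RInt Fld →+* Zb ⧸ m := (Ideal.Quotient.mk m).comp j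
  have hfC : ∀ y : P.primeCompl, IsUnit (fC y) := by
    intro y
    rw [isUnit_iff_ne_zero]
    intro h0
    have h1 : j (y : RInt Fld) ∈ m := Ideal.Quotient.eq_zero_iff_mem.mp h0
    exact y.2 (Ideal.mem_comap.mpr h1)
  let fR : R →+* Zb ⧸ m := IsLocalization.lift hfC
  have hfR : ∀ c : RInt Fld, fR (algebraMap (RInt Fld) R c) = fC c := fun c =>
    IsLocalization.lift_eq hfC c
  have hkill : ∀ a ∈ maximalIdeal R, fR a = 0 := by
    have hle : maximalIdeal R ≤ RingHom.ker fR := by
      rw [← IsLocalization.AtPrime.map_eq_maximalIdeal P R, Ideal.map_le_iff_le_comap]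
      intro c hc
      rw [Ideal.mem_comap, RingHom.mem_ker, hfR]
      exact Ideal.Quotient.eq_zero_iff_mem.mpr hc
    exact fun a ha => hle ha
  let g0 : R ⧸ maximalIdeal R →+* Zb ⧸ m := Ideal.Quotient.lift (maximalIdeal R) fR hkill
  -- the completion
  let O' : Type := Lib.DVRCompletion.Compl R
  have hOdom : IsDomain O' := Lib.DVRCompletion.isDomain R
  let gO : O' →+* Zb ⧸ m := g0.comp (AdicCompletion.evalOneₐ (maximalIdeal R)).toRingHom
  have hgO : ∀ r : R, gO (algebraMap R O' r) = fR r := fun r => rfl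
  obtain ⟨ϖ, hϖ⟩ := IsDiscreteValuationRing.exists_irreducible R
  have hϖmem : ϖ ∈ maximalIdeal R := by
    rw [(IsDiscreteValuationRing.irreducible_iff_uniformizer ϖ).mp hϖ]
    exact Ideal.mem_span_singleton_self ϖ
  have hkill' : ∀ a ∈ maximalIdeal O', gO a = 0 := by
    intro a ha
    rw [Lib.DVRCompletion.maximalIdeal_eq_span R hϖ, Ideal.mem_span_singleton] at ha
    obtain ⟨b, rfl⟩ := ha
    rw [map_mul, hgO, hkill ϖ hϖmem, zero_mul]
  let ι : ResidueField O' →+* Zb ⧸ m := Ideal.Quotient.lift (maximalIdeal O') gO hkill'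
  let χ : T →+* O' :=
    (algebraMap R O').comp ((algebraMap (RInt Fld) R).comp (chi1 Fld e ψ g hg))
  refine ⟨O', inferInstance, hOdom, Lib.DVRCompletion.isDiscreteValuationRing R, inferInstance,
    Lib.DVRCompletion.finite_residueField R, Lib.DVRCompletion.charZero R, ?_, χ, ι, ?_⟩
  · by_contra hnot
    have hunit : IsUnit ((p : ℕ) : O') := by
      by_contra h
      exact hnot ((IsLocalRing.mem_maximalIdeal _).mpr h)
    have h2 : IsUnit (gO ((p : ℕ) : O')) := hunit.map gO
    rw [map_natCast] at h2
    have h3 : ((p : ℕ) : Zb ⧸ m) = 0 := by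
      rw [← map_natCast (Ideal.Quotient.mk m)]
      exact Ideal.Quotient.eq_zero_iff_mem.mpr hp
    rw [h3] at h2
    exact not_isUnit_zero h2
  · intro t
    show gO (χ t) = _
    show gO (algebraMap R O' (algebraMap (RInt Fld) R (chi1 Fld e ψ g hg t))) = _
    rw [hgO, hfR]
    show Ideal.Quotient.mk m (j (chi1 Fld e ψ g hg t)) = _
    rw [jMap_chi1]

end Abstract

section Concrete

variable {T : Type} [CommRing T] [Module.Finite ℤ T] (ψ : T →+* Zb)

/-- The values of `ψ` lie in a number field inside `ℂ`. -/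
theorem exists_numberField :
    ∃ F : IntermediateField ℚ ℂ, FiniteDimensional ℚ F ∧ ∀ t : T, ((ψ t : Zb) : ℂ) ∈ F := by
  obtain ⟨s, hs⟩ := Module.Finite.fg_top (R := ℤ) (M := T)
  let S0 : Set ℂ := (fun t : T => ((ψ t : Zb) : ℂ)) '' (s : Set T)
  have hS0fin : S0.Finite := (Finset.finite_toSet s).image _
  have : Finite S0 := hS0fin.to_subtype
  refine ⟨IntermediateField.adjoin ℚ S0,
    IntermediateField.finiteDimensional_adjoin (fun x hx => ?_), fun t => ?_⟩
  · obtain ⟨t, _, rfl⟩ := hx
    exact (ψ t).2.tower_top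
  · have ht : t ∈ Submodule.span ℤ (s : Set T) := by rw [hs]; trivial
    induction ht using Submodule.span_induction with
    | mem x hx => exact IntermediateField.subset_adjoin ℚ S0 ⟨x, hx, rfl⟩
    | zero => simp
    | add x y _ _ hx hy =>
      rw [map_add]
      push_cast
      exact add_mem hx hy
    | smul n x _ hx =>
      rw [zsmul_eq_mul, map_mul, map_intCast]
      push_cast
      exact mul_mem (intCast_mem _ n) hx

/-- **Brick L4 of the S29 wiring.**  A complete DVR of characteristic zero with finite residue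
field receiving `ψ`, with residue field embedded compatibly in `Zb ⧸ m`. -/
theorem exists_coeffRing {p : ℕ} [Fact p.Prime] (m : Ideal Zb) [m.IsMaximal]
    (hp : (p : Zb) ∈ m) :
    ∃ (O' : Type) (_ : CommRing O') (_ : IsDomain O') (_ : IsDiscreteValuationRing O')
      (_ : IsAdicComplete (IsLocalRing.maximalIdeal O') O')
      (_ : Finite (IsLocalRing.ResidueField O')) (_ : CharZero O'),
      (p : O') ∈ IsLocalRing.maximalIdeal O' ∧
      ∃ (χ : T →+* O') (ι : IsLocalRing.ResidueField O' →+* Zb ⧸ m),
        ∀ t, ι (IsLocalRing.residue O' (χ t)) = Ideal.Quotient.mk m (ψ t) := by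
  obtain ⟨F, hFfin, hF⟩ := exists_numberField ψ
  have : CharZero F := RingHom.charZero (algebraMap F ℂ)
  let g : T →+* F := ((algebraMap Zb ℂ).comp ψ).codRestrict F hF
  exact exists_coeffRing_of_field (↥F) (algebraMap F ℂ) ψ g (fun t => rfl) m hp

end Concrete

/-- Residue-field embeddings into an algebraically closed field extend along local
homomorphisms of local rings with finite residue fields. -/
theorem exists_residue_extension (O' O'' : Type) [CommRing O'] [IsLocalRing O'] [CommRing O'']
    [IsLocalRing O''] [Algebra O' O''] [IsLocalHom (algebraMap O' O'')]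
    [Finite (ResidueField O'')] {Ω : Type*} [Field Ω] [IsAlgClosed Ω]
    (ι : ResidueField O' →+* Ω) :
    ∃ ι'' : ResidueField O'' →+* Ω,
      ∀ a : O', ι'' (residue O'' (algebraMap O' O'' a)) = ι (residue O' a) := by
  have : Module.Finite (ResidueField O') (ResidueField O'') := Module.Finite.of_finite
  have : Algebra.IsAlgebraic (ResidueField O') (ResidueField O'') := Algebra.IsAlgebraic.of_finite _ _
  obtain ⟨ι'', hι''⟩ := exists_extension (κ' := ResidueField O'') ι
  refine ⟨ι'', fun a => ?_⟩
  have := congrArg (fun f : ResidueField O' →+* Ω => f (residue O' a)) hι''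
  simpa using this

/-- **Consumer form of L4.**  For `φ : Zb →+* k` with `k` of characteristic `p` there are a complete
DVR `O'` (characteristic zero, finite residue field of characteristic `p`) and `χ : T →+* O'`
such that for EVERY local `O'`-algebra `O''` with local structure map and finite residue field
there is an embedding `ι''` of the residue field of `O''` into `k` with
`ι'' (χ t mod 𝔪'') = φ (ψ t)`. -/
theorem exists_coeffRing_to_field {T : Type} [CommRing T] [Module.Finite ℤ T] (ψ : T →+* Zb)
    {p : ℕ} [Fact p.Prime] {k : Type*} [Field k] [CharP k p] (φ : Zb →+* k) :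
    ∃ (O' : Type) (_ : CommRing O') (_ : IsDomain O') (_ : IsDiscreteValuationRing O')
      (_ : IsAdicComplete (IsLocalRing.maximalIdeal O') O')
      (_ : Finite (IsLocalRing.ResidueField O')) (_ : CharZero O'),
      (p : O') ∈ IsLocalRing.maximalIdeal O' ∧
      ∃ χ : T →+* O',
        ∀ (O'' : Type) [CommRing O''] [IsLocalRing O''] [Algebra O' O'']
          [IsLocalHom (algebraMap O' O'')] [Finite (IsLocalRing.ResidueField O'')],
          ∃ ι'' : IsLocalRing.ResidueField O'' →+* k,
            ∀ t, ι'' (IsLocalRing.residue O'' (algebraMap O' O'' (χ t))) = φ (ψ t) := by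
  have hmax : (RingHom.ker φ).IsMaximal := ker_isMaximal φ
  obtain ⟨O', i1, i2, i3, i4, i5, i6, hpO, χ, ι, hι⟩ :=
    exists_coeffRing ψ (p := p) (RingHom.ker φ) (natCast_mem_ker φ)
  refine ⟨O', i1, i2, i3, i4, i5, i6, hpO, χ, ?_⟩
  intro O'' _ _ _ _ _
  let _ : Field (Zb ⧸ RingHom.ker φ) := Ideal.Quotient.field (RingHom.ker φ)
  have hclosed : IsAlgClosed (Zb ⧸ RingHom.ker φ) := isAlgClosed_quot (RingHom.ker φ)
  obtain ⟨ι1, hι1⟩ := exists_residue_extension O' O'' ι
  refine ⟨(RingHom.kerLift φ).comp ι1, fun t => ?_⟩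
  rw [RingHom.comp_apply, hι1, hι, RingHom.kerLift_mk]

end Fermat.Agent.S29.CoeffRing
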