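import Mathlib
import Fermat.Agent.Lib.DVRExt

/-!
# S29 from S30, brick L4: lifting a residual eigencharacter to a complete DVR

* `exists_dvr_lift` **(B)**: for a commutative ring `T` finite over `ℤ`, a character
  `χ0 : T →+* ℤ̄` and a ring hom `φ : ℤ̄ →+* k` to a field of characteristic `p`, there is a
  complete characteristic-zero DVR `𝒪` with finite residue field and `p ∈ 𝔪`, a character
  `χ : T →+* 𝒪` and an embedding `j : κ(𝒪) →+* k` with `j (χ t mod 𝔪) = φ (χ0 t)`.
* `exists_residue_extension` **(C)**: embeddings of finite fields into such a `k` extend along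
  finite field extensions.
* `isAlgClosed_quot` **(A)**: `ℤ̄` modulo a maximal ideal is an algebraically closed field.
-/

set_option autoImplicit false
set_option linter.style.haveILetI false
set_option linter.unusedSectionVars false

namespace Fermat.Agent.S29.Lift

open IsLocalRing Polynomial
open scoped TensorProduct

section General

/-- Lift a ring hom through an injective ring hom whose range contains its range. -/
theorem exists_lift_of_range_subset {A B C : Type*} [Ring A] [Ring B] [Ring C]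
    (ι : B →+* C) (hι : Function.Injective ι) (j : A →+* C) (h : ∀ a, ∃ b, ι b = j a) :
    ∃ j0 : A →+* B, ι.comp j0 = j := by
  choose g hg using h
  refine ⟨{ toFun := g, map_one' := ?_, map_mul' := ?_, map_zero' := ?_, map_add' := ?_ }, ?_⟩
  · apply hι; rw [hg, map_one, map_one]
  · intro x y; apply hι; rw [hg, map_mul, map_mul, hg, hg]
  · apply hι; rw [hg, map_zero, map_zero]
  · intro x y; apply hι; rw [hg, map_add, map_add, hg, hg]
  · ext a; exact hg a

end General

section Zbar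

variable {k : Type} [Field k] (φ : integralClosure ℤ ℂ →+* k)

/-- The kernel of a ring hom from `ℤ̄` to a field of positive characteristic is maximal. -/
theorem ker_isMaximal (p : ℕ) [Fact p.Prime] [CharP k p] : (RingHom.ker φ).IsMaximal := by
  have hprime : (RingHom.ker φ).IsPrime := RingHom.ker_isPrime φ
  refine Ideal.IsPrime.isMaximal hprime ?_
  intro hbot
  have hp : ((p : ℕ) : integralClosure ℤ ℂ) ∈ RingHom.ker φ := by
    rw [RingHom.mem_ker, map_natCast]
    exact CharP.cast_eq_zero k p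
  rw [hbot, Ideal.mem_bot] at hp
  have : (p : ℕ) = 0 := by exact_mod_cast hp
  exact (Fact.out : p.Prime).ne_zero this

end Zbar

/-- `ℤ̄` modulo a maximal ideal is an algebraically closed field. -/
theorem isAlgClosed_quot (I : Ideal (integralClosure ℤ ℂ)) [hI : I.IsMaximal] :
    @IsAlgClosed (integralClosure ℤ ℂ ⧸ I) (Ideal.Quotient.field I) := by
  letI := Ideal.Quotient.field I
  refine IsAlgClosed.of_exists_root _ fun q hq hirr => ?_
  have hsurj : Function.Surjective (Ideal.Quotient.mk I) := Ideal.Quotient.mk_surjective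
  have hlift : q ∈ Polynomial.lifts (Ideal.Quotient.mk I) := by
    rw [Polynomial.mem_lifts]
    exact Polynomial.map_surjective _ hsurj q
  obtain ⟨g, hg, hgdeg, hgmon⟩ := Polynomial.lifts_and_natDegree_eq_and_monic hlift hq
  have hqdeg : q.natDegree ≠ 0 := fun h0 => by
    have := Polynomial.degree_pos_of_irreducible hirr
    rw [Polynomial.degree_eq_natDegree hq.ne_zero, h0] at this
    simp at this
  have hdeg : (g.map (algebraMap (integralClosure ℤ ℂ) ℂ)).degree ≠ 0 := by
    rw [Polynomial.degree_map_eq_of_injective Subtype.val_injective,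
      Polynomial.degree_eq_natDegree hgmon.ne_zero, hgdeg]
    exact_mod_cast hqdeg
  obtain ⟨α, hα⟩ := IsAlgClosed.exists_root (g.map (algebraMap (integralClosure ℤ ℂ) ℂ)) hdeg
  have hα' : Polynomial.aeval α g = 0 := by
    rw [Polynomial.aeval_def, ← Polynomial.eval_map]; exact hα
  have hαint : IsIntegral (integralClosure ℤ ℂ) α := ⟨g, hgmon, hα'⟩
  have hαZ : IsIntegral ℤ α := isIntegral_trans α hαint
  let a : integralClosure ℤ ℂ := ⟨α, hαZ⟩
  have ha : g.eval a = 0 := by
    apply Subtype.val_injective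
    have h1 : ((g.eval a : integralClosure ℤ ℂ) : ℂ) = Polynomial.aeval α g := by
      rw [Polynomial.aeval_def, ← Polynomial.eval_map]
      have := Polynomial.eval₂_hom (p := g) (algebraMap (integralClosure ℤ ℂ) ℂ) a
      simpa [Polynomial.eval_map] using this.symm
    rw [h1, hα']
    rfl
  refine ⟨Ideal.Quotient.mk I a, ?_⟩
  rw [← hg, Polynomial.eval_map, Polynomial.eval₂_hom, ha, map_zero]

/-- An algebraically closed subfield contains the image of every finite field. -/
theorem exists_eq_of_finite {K0 k : Type*} [Field K0] [IsAlgClosed K0] [Field k] (ι : K0 →+* k)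
    {F : Type*} [Field F] [Finite F] (j : F →+* k) (x : F) : ∃ z : K0, ι z = j x := by
  letI : Algebra K0 k := ι.toAlgebra
  haveI : Fintype F := Fintype.ofFinite F
  have hcard : 1 < Fintype.card F := Fintype.one_lt_card
  have hint : IsIntegral K0 (j x) := by
    refine ⟨X ^ Fintype.card F - X, Polynomial.monic_X_pow_sub ?_, ?_⟩
    · rw [Polynomial.degree_X]; exact_mod_cast hcard
    · rw [Polynomial.eval₂_sub, Polynomial.eval₂_pow, Polynomial.eval₂_X, ← map_pow,
        FiniteField.pow_card, sub_self]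
  have hdeg := IsAlgClosed.degree_eq_one_of_irreducible K0 (minpoly.irreducible hint)
  obtain ⟨z, hz⟩ := minpoly.mem_range_of_degree_eq_one K0 (j x) hdeg
  exact ⟨z, hz⟩

/-- (C) Extension of a residue-field embedding into `k` along a finite field extension,
for `k` receiving `ℤ̄`. -/
theorem exists_residue_extension {k : Type} [Field k] (φ : integralClosure ℤ ℂ →+* k)
    {F F' : Type} [Field F] [Field F'] [Finite F] [Finite F'] (i : F →+* F') (j : F →+* k) :
    ∃ j' : F' →+* k, j'.comp i = j := by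
  obtain ⟨p, hp⟩ := CharP.exists F
  haveI := hp
  haveI : Fact p.Prime := ⟨CharP.char_is_prime F p⟩
  haveI : CharP k p := charP_of_injective_ringHom j.injective p
  haveI hmax := ker_isMaximal φ p
  letI := Ideal.Quotient.field (RingHom.ker φ)
  haveI := isAlgClosed_quot (RingHom.ker φ)
  let ι : (integralClosure ℤ ℂ ⧸ RingHom.ker φ) →+* k := RingHom.kerLift φ
  have hι : Function.Injective ι := RingHom.kerLift_injective φ
  obtain ⟨j0, hj0⟩ := exists_lift_of_range_subset ι hι j (exists_eq_of_finite ι j)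
  letI : Algebra F F' := i.toAlgebra
  letI : Algebra F (integralClosure ℤ ℂ ⧸ RingHom.ker φ) := j0.toAlgebra
  haveI : Module.Finite F F' := Module.Finite.of_finite
  haveI : Algebra.IsAlgebraic F F' := Algebra.IsAlgebraic.of_finite F F'
  haveI : Module.IsTorsionFree F F' :=
    Module.isTorsionFree_iff_algebraMap_injective.mpr i.injective
  haveI : Module.IsTorsionFree F (integralClosure ℤ ℂ ⧸ RingHom.ker φ) :=
    Module.isTorsionFree_iff_algebraMap_injective.mpr j0.injective
  let l : F' →ₐ[F] (integralClosure ℤ ℂ ⧸ RingHom.ker φ) := IsAlgClosed.lift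
  refine ⟨ι.comp l.toRingHom, ?_⟩
  ext x
  have h1 : l (i x) = j0 x := l.commutes x
  show ι (l (i x)) = j x
  rw [h1, ← hj0]
  rfl

section Tensor

variable (p : ℕ) [Fact p.Prime] (R : Type) [CommRing R] [Module.Finite ℤ R] [Module.Free ℤ R]

/-- The `p`-adic base change of a finite free `ℤ`-algebra. -/
abbrev Tp : Type := ℤ_[p] ⊗[ℤ] R


theorem natCast_mem_nonZeroDivisors : ((p : ℕ) : Tp p R) ∈ nonZeroDivisors (Tp p R) := by
  rw [mem_nonZeroDivisors_iff_right]
  intro x hx
  have hp0 : ((p : ℕ) : ℤ_[p]) ≠ 0 := by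
    exact_mod_cast (Fact.out : p.Prime).ne_zero
  have h1 : ((p : ℕ) : ℤ_[p]) • x = 0 := by
    rw [Nat.cast_smul_eq_nsmul, nsmul_eq_mul, mul_comm]; exact hx
  exact (smul_eq_zero.mp h1).resolve_left hp0

end Tensor

section Quot

variable (p : ℕ) [Fact p.Prime] (R : Type) [CommRing R]

/-- A prime of `ℤ_[p] ⊗ R` not containing `p` contracts to zero in `ℤ_[p]`. -/
theorem injective_algebraMap_quot (𝔮 : Ideal (Tp p R)) [h𝔮 : 𝔮.IsPrime]
    (hp𝔮 : ((p : ℕ) : Tp p R) ∉ 𝔮) :
    Function.Injective (algebraMap ℤ_[p] (Tp p R ⧸ 𝔮) : ℤ_[p] →+* Tp p R ⧸ 𝔮) := by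
  rw [injective_iff_map_eq_zero]
  intro a ha
  by_contra ha0
  have hmem : a ∈ 𝔮.comap (algebraMap ℤ_[p] (Tp p R)) := by
    rw [Ideal.mem_comap]
    rw [← Ideal.Quotient.mk_algebraMap] at ha
    exact Ideal.Quotient.eq_zero_iff_mem.mp ha
  have hne : 𝔮.comap (algebraMap ℤ_[p] (Tp p R)) ≠ ⊥ := fun h => by
    rw [h, Ideal.mem_bot] at hmem; exact ha0 hmem
  obtain ⟨n, hn⟩ := PadicInt.ideal_eq_span_pow_p hne
  have hpn : ((p : ℤ_[p]) ^ n) ∈ 𝔮.comap (algebraMap ℤ_[p] (Tp p R)) := by
    rw [hn]; exact Ideal.mem_span_singleton_self _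
  rw [Ideal.mem_comap, map_pow, map_natCast] at hpn
  exact hp𝔮 (h𝔮.mem_of_pow_mem n hpn)

end Quot

/-- A domain finite over `ℤ_[p]` embeds in a complete DVR with finite residue field, compatibly
with a given point in an algebraically closed field of characteristic `p`. -/
theorem exists_dvr_lift_of_domain (p : ℕ) [Fact p.Prime] (D : Type) [CommRing D] [IsDomain D]
    [Algebra ℤ_[p] D] [Module.Finite ℤ_[p] D] (hinj : Function.Injective (algebraMap ℤ_[p] D))
    {K0 : Type} [Field K0] [IsAlgClosed K0] (ψD : D →+* K0) (hp : ψD ((p : ℕ) : D) = 0) :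
    ∃ (𝒪 : Type) (_ : CommRing 𝒪) (_ : IsDomain 𝒪) (_ : IsDiscreteValuationRing 𝒪)
      (_ : IsAdicComplete (maximalIdeal 𝒪) 𝒪) (_ : Finite (ResidueField 𝒪)) (_ : CharZero 𝒪)
      (_ : ((p : ℕ) : 𝒪) ∈ maximalIdeal 𝒪) (χ : D →+* 𝒪) (j : ResidueField 𝒪 →+* K0),
      ∀ d : D, j (residue 𝒪 (χ d)) = ψD d := by
  classical
  haveI : FaithfulSMul ℤ_[p] D := (faithfulSMul_iff_algebraMap_injective _ _).mpr hinj
  haveI : Algebra.IsIntegral ℤ_[p] D := Algebra.IsIntegral.of_finite ℤ_[p] D
  -- the fraction field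
  have hg : Function.Injective (algebraMap ℤ_[p] (FractionRing D)) := by
    rw [IsScalarTower.algebraMap_eq ℤ_[p] D (FractionRing D)]
    exact (IsFractionRing.injective D (FractionRing D)).comp hinj
  letI algQL : Algebra ℚ_[p] (FractionRing D) := (IsFractionRing.lift hg).toAlgebra
  haveI : IsScalarTower ℤ_[p] ℚ_[p] (FractionRing D) :=
    IsScalarTower.of_algebraMap_eq fun a => (IsFractionRing.lift_algebraMap hg a).symm
  haveI : IsLocalization (Algebra.algebraMapSubmonoid D (nonZeroDivisors ℤ_[p]))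
      (FractionRing D) := inferInstance
  haveI : FiniteDimensional ℚ_[p] (FractionRing D) :=
    Module.Finite.of_isLocalization ℤ_[p] D (nonZeroDivisors ℤ_[p])
  obtain ⟨O, i1, i2, i3, i4, i5, i6, i7, i8, i9, i10, i11, hinjO, hcomp, hint⟩ :=
    Fermat.Agent.Lib.DVRExt.exists_ext' ℤ_[p] ℚ_[p] (FractionRing D)
  -- `D` maps into `O`
  have hcomp' : (algebraMap O (FractionRing D)).comp (algebraMap ℤ_[p] O)
      = (algebraMap D (FractionRing D)).comp (algebraMap ℤ_[p] D) := by
    rw [hcomp, ← IsScalarTower.algebraMap_eq, ← IsScalarTower.algebraMap_eq]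
  have hrange : ∀ d : D, ∃ y : O,
      algebraMap O (FractionRing D) y = algebraMap D (FractionRing D) d := by
    intro d
    exact hint _ ((Algebra.IsIntegral.isIntegral (R := ℤ_[p]) d).map_of_comp_eq
      (algebraMap ℤ_[p] O) (algebraMap D (FractionRing D)) hcomp')
  obtain ⟨ιD, hιD⟩ := exists_lift_of_range_subset (algebraMap O (FractionRing D))
    (IsFractionRing.injective O (FractionRing D)) (algebraMap D (FractionRing D)) hrange
  have hιD' : ∀ d : D, algebraMap O (FractionRing D) (ιD d) = algebraMap D (FractionRing D) d :=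
    fun d => congrArg (fun f : D →+* FractionRing D => f d) hιD
  have hιD_inj : Function.Injective ιD := by
    intro a b hab
    apply IsFractionRing.injective D (FractionRing D)
    rw [← hιD', ← hιD', hab]
  have hιD_comp : ιD.comp (algebraMap ℤ_[p] D) = algebraMap ℤ_[p] O := by
    apply RingHom.ext
    intro a
    apply IsFractionRing.injective O (FractionRing D)
    have h1 := congrArg (fun f : ℤ_[p] →+* FractionRing D => f a) hcomp'
    simp only [RingHom.comp_apply] at h1
    rw [RingHom.comp_apply, hιD', h1]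
  have hιD_int : ιD.IsIntegral := by
    have h1 : (ιD.comp (algebraMap ℤ_[p] D)).IsIntegral := by
      rw [hιD_comp]
      exact algebraMap_isIntegral_iff.mpr (Algebra.IsIntegral.of_finite ℤ_[p] O)
    exact RingHom.IsIntegral.tower_top _ _ h1
  haveI : IsLocalHom ιD := hιD_int.isLocalHom hιD_inj
  -- `p` lies in the maximal ideal
  have hpO : ((p : ℕ) : O) ∈ maximalIdeal O := by
    rw [mem_maximalIdeal, mem_nonunits_iff]
    intro hu
    have h2 : algebraMap ℤ_[p] O ((p : ℕ) : ℤ_[p]) = ((p : ℕ) : O) := map_natCast _ _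
    have h3 : IsUnit ((p : ℕ) : ℤ_[p]) := IsUnit.of_map (algebraMap ℤ_[p] O) _ (h2 ▸ hu)
    exact PadicInt.p_nonunit h3
  -- the kernel of `ψD` is maximal
  have hMprime : (RingHom.ker ψD).IsPrime := RingHom.ker_isPrime ψD
  have hMmax : (RingHom.ker ψD).IsMaximal := by
    refine Ideal.isMaximal_of_isIntegral_of_isMaximal_comap (R := ℤ_[p]) (RingHom.ker ψD) ?_
    have hle : maximalIdeal ℤ_[p] ≤ (RingHom.ker ψD).comap (algebraMap ℤ_[p] D) := by
      rw [PadicInt.maximalIdeal_eq_span_p, Ideal.span_le, Set.singleton_subset_iff,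
        SetLike.mem_coe, Ideal.mem_comap, RingHom.mem_ker, map_natCast]
      exact hp
    have hne : (RingHom.ker ψD).comap (algebraMap ℤ_[p] D) ≠ ⊤ :=
      (Ideal.comap_isPrime (algebraMap ℤ_[p] D) (RingHom.ker ψD)).ne_top
    rw [← (IsLocalRing.maximalIdeal.isMaximal ℤ_[p]).eq_of_le hne hle]
    exact IsLocalRing.maximalIdeal.isMaximal _
  have hker_le : ∀ d : D, ψD d = 0 → ιD d ∈ maximalIdeal O := by
    intro d hd
    rw [mem_maximalIdeal, mem_nonunits_iff]
    intro hu
    have hud : IsUnit d := IsUnit.of_map ιD d hu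
    have h4 : IsUnit (ψD d) := hud.map ψD
    rw [hd] at h4
    exact not_isUnit_zero h4
  letI := Ideal.Quotient.field (RingHom.ker ψD)
  let g1 : D ⧸ RingHom.ker ψD →+* ResidueField O :=
    Ideal.Quotient.lift (RingHom.ker ψD) ((residue O).comp ιD)
      (fun d hd => (residue_eq_zero_iff _).mpr (hker_le d (RingHom.mem_ker.mp hd)))
  let g2 : D ⧸ RingHom.ker ψD →+* K0 := RingHom.kerLift ψD
  letI : Algebra (D ⧸ RingHom.ker ψD) (ResidueField O) := g1.toAlgebra
  letI : Algebra (D ⧸ RingHom.ker ψD) K0 := g2.toAlgebra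
  haveI : Module.Finite (D ⧸ RingHom.ker ψD) (ResidueField O) := Module.Finite.of_finite
  haveI : Algebra.IsAlgebraic (D ⧸ RingHom.ker ψD) (ResidueField O) :=
    Algebra.IsAlgebraic.of_finite _ _
  haveI : Module.IsTorsionFree (D ⧸ RingHom.ker ψD) (ResidueField O) :=
    Module.isTorsionFree_iff_algebraMap_injective.mpr g1.injective
  haveI : Module.IsTorsionFree (D ⧸ RingHom.ker ψD) K0 :=
    Module.isTorsionFree_iff_algebraMap_injective.mpr g2.injective
  let l : ResidueField O →ₐ[D ⧸ RingHom.ker ψD] K0 := IsAlgClosed.lift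
  refine ⟨O, i1, i2, i3, i4, i5, i6, hpO, ιD, l.toRingHom, fun d => ?_⟩
  have h1 : residue O (ιD d) =
      algebraMap (D ⧸ RingHom.ker ψD) (ResidueField O) (Ideal.Quotient.mk _ d) := rfl
  show l (residue O (ιD d)) = ψD d
  rw [h1, l.commutes]
  rfl

section Main

/-- Lifting a characteristic-`p` point of a finite free `ℤ`-algebra to a complete DVR. -/
theorem exists_dvr_lift_free (p : ℕ) [Fact p.Prime] (R : Type) [CommRing R] [Module.Finite ℤ R]
    [Module.Free ℤ R] {K0 : Type} [Field K0] [CharP K0 p] [IsAlgClosed K0] (ψ : R →+* K0) :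
    ∃ (𝒪 : Type) (_ : CommRing 𝒪) (_ : IsDomain 𝒪) (_ : IsDiscreteValuationRing 𝒪)
      (_ : IsAdicComplete (maximalIdeal 𝒪) 𝒪) (_ : Finite (ResidueField 𝒪)) (_ : CharZero 𝒪)
      (_ : ((p : ℕ) : 𝒪) ∈ maximalIdeal 𝒪) (χ : R →+* 𝒪) (j : ResidueField 𝒪 →+* K0),
      ∀ r : R, j (residue 𝒪 (χ r)) = ψ r := by
  classical
  let f0 : ℤ_[p] →+* K0 := (ZMod.castHom (dvd_refl p) K0).comp PadicInt.toZMod
  let ψp : Tp p R →ₐ[ℤ] K0 :=
    Algebra.TensorProduct.lift f0.toIntAlgHom ψ.toIntAlgHom (fun _ _ => Commute.all _ _)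
  have hψp_tmul : ∀ (a : ℤ_[p]) (r : R), ψp (a ⊗ₜ[ℤ] r) = f0 a * ψ r := fun a r => by
    simp [ψp]
  haveI hker : (RingHom.ker ψp.toRingHom).IsPrime := RingHom.ker_isPrime _
  obtain ⟨𝔮, h𝔮min, h𝔮le⟩ := Ideal.exists_minimalPrimes_le
    (bot_le : (⊥ : Ideal (Tp p R)) ≤ RingHom.ker ψp.toRingHom)
  haveI h𝔮prime : 𝔮.IsPrime := h𝔮min.1.1
  have hp𝔮 : ((p : ℕ) : Tp p R) ∉ 𝔮 := fun h =>
    Set.disjoint_left.mp (Ideal.disjoint_nonZeroDivisors_of_mem_minimalPrimes h𝔮min) h
      (natCast_mem_nonZeroDivisors p R)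
  have hinj := injective_algebraMap_quot p R 𝔮 hp𝔮
  let ψD : Tp p R ⧸ 𝔮 →+* K0 := Ideal.Quotient.lift 𝔮 ψp.toRingHom (fun a ha => h𝔮le ha)
  have hpD : ψD ((p : ℕ) : Tp p R ⧸ 𝔮) = 0 := by
    rw [map_natCast]; exact CharP.cast_eq_zero K0 p
  obtain ⟨O, i1, i2, i3, i4, i5, i6, hpO, χD, j, hj⟩ :=
    exists_dvr_lift_of_domain p (Tp p R ⧸ 𝔮) hinj ψD hpD
  refine ⟨O, i1, i2, i3, i4, i5, i6, hpO,
    χD.comp ((Ideal.Quotient.mk 𝔮).comp
      (Algebra.TensorProduct.includeRight (R := ℤ) (A := ℤ_[p]) (B := R)).toRingHom), j,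
    fun r => ?_⟩
  rw [RingHom.comp_apply, hj]
  show ψp ((1 : ℤ_[p]) ⊗ₜ[ℤ] r) = ψ r
  rw [hψp_tmul, map_one, one_mul]

/-- **(B)** Lifting a residual eigencharacter to a complete DVR: the hypotheses of the frozen
statement S30 (a complete characteristic-zero DVR `𝒪` with finite residue field and `p` in its
maximal ideal, with a character `χ : T →+* 𝒪`), together with an embedding `j` of the residue
field of `𝒪` into `k` under which `χ` reduces to `φ ∘ χ0`. -/
theorem exists_dvr_lift {T : Type} [CommRing T] [Module.Finite ℤ T] (p : ℕ) [Fact p.Prime]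
    {k : Type} [Field k] [CharP k p]
    (χ0 : T →+* integralClosure ℤ ℂ) (φ : integralClosure ℤ ℂ →+* k) :
    ∃ (𝒪 : Type) (_ : CommRing 𝒪) (_ : IsDomain 𝒪) (_ : IsDiscreteValuationRing 𝒪)
      (_ : IsAdicComplete (IsLocalRing.maximalIdeal 𝒪) 𝒪)
      (_ : Finite (IsLocalRing.ResidueField 𝒪)) (_ : CharZero 𝒪)
      (_ : (p : 𝒪) ∈ IsLocalRing.maximalIdeal 𝒪)
      (χ : T →+* 𝒪) (j : IsLocalRing.ResidueField 𝒪 →+* k),
      ∀ t : T, j (IsLocalRing.residue 𝒪 (χ t)) = φ (χ0 t) := by
  haveI hmax := ker_isMaximal φ p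
  letI := Ideal.Quotient.field (RingHom.ker φ)
  haveI := isAlgClosed_quot (RingHom.ker φ)
  haveI : CharP (integralClosure ℤ ℂ ⧸ RingHom.ker φ) p :=
    (RingHom.charP_iff (RingHom.kerLift φ) (RingHom.kerLift_injective φ) p).mpr inferInstance
  haveI : Module.Finite ℤ χ0.range :=
    Module.Finite.of_surjective χ0.rangeRestrict.toIntAlgHom.toLinearMap
      χ0.rangeRestrict_surjective
  haveI : Module.Free ℤ χ0.range := Module.free_of_finite_type_torsion_free'
  obtain ⟨O, i1, i2, i3, i4, i5, i6, hpO, χ, j, hj⟩ := exists_dvr_lift_free p χ0.range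
    ((Ideal.Quotient.mk (RingHom.ker φ)).comp χ0.range.subtype)
  refine ⟨O, i1, i2, i3, i4, i5, i6, hpO, χ.comp χ0.rangeRestrict,
    (RingHom.kerLift φ).comp j, fun t => ?_⟩
  rw [RingHom.comp_apply, RingHom.comp_apply, hj]
  rfl

end Main

end Fermat.Agent.S29.Lift
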